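-- Statement S18 (row 17): ModularCurve.eq_zero_of_reductionModL_eq_zero_of_nsmul_eq_zero.
-- Route R(X): the Legendre cover (ℓ odd) and the Hesse cover (ℓ = 2); see Fermat/Agent/JT3/Inst.
import Fermat.Statements.S18
import Fermat.Agent.JT3.Inst.S18Odd
import Fermat.Agent.JT3.Inst.S18Ram
import Fermat.Agent.JT3.Inst.HesseRamHyp

set_option autoImplicit false
open ModularCurve

namespace Fermat.Agent.S18

theorem result (N : ℕ) [NeZero N] {ℓ : ℕ}
    [Fact ℓ.Prime] (hℓN : ¬ ℓ ∣ N) (A : ValuationSubring (AlgebraicClosure ℚ)) (hA : A.LiesOverPrime ℓ)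
    (h : ModularCurve.ReductionInputsModL A N) (m : ℕ) (hm : ¬ ℓ ∣ m) (z : ModularCurve.JZero N)
    (hmz : m • z = 0) (hz : ModularCurve.reductionModL A N z = 0) :
    z = 0 := by
  by_cases hℓ2 : ℓ = 2
  · have hℓ3 : ℓ ≠ 3 := by omega
    exact Fermat.Agent.JT3.hs_S18_of_ram N hℓN hℓ3 A hA h m hm
      (fun L1 _ _ _ h3 ω hω => Fermat.Agent.JT3.hsrc_hram N L1 h3 ω hω) z hmz hz
  · exact Fermat.Agent.JT3.lg_S18_odd N hℓN hℓ2 A hA h m hm z hmz hz

end Fermat.Agent.S18
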