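-- Statement S22 (row 21): finiteness of the Hecke algebra as a ℤ-module.
-- Proof: Eichler–Shimura periods. See Fermat/Agent/S22/Glue.lean for the assembly.
import Fermat.Statements.S22
import Fermat.Agent.S22.Reductions
import Fermat.Agent.S22.Glue

set_option autoImplicit false
open CuspForm

namespace Fermat.Agent.S22

theorem result (N : ℕ) [NeZero N] (k : ℤ) (S : Set ℕ) :
    Module.Finite ℤ (CuspForm.heckeAlgebra N k S) := by
  refine result_of_even (fun N _ k hk _ => ?_) N k S
  obtain ⟨m, rfl⟩ : ∃ m : ℕ, k = (m : ℤ) + 2 := ⟨(k - 2).toNat, by omega⟩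
  exact Glue.finite_heckeAlgebra_add_two N m ∅

end Fermat.Agent.S22
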