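-- Statement S32 (CuspForm.HeckeGaloisRepDatum.isFlatAt_of_primeFactors_subset): flatness at `p ∤ N`.
-- Project FF, cell [CAR] (architect: helper21): `V / I V` is a `G_ℚ`-subquotient of a power of
-- `J₀(N)[p^M]` (Carayol / Boston–Lenstra–Ribet, module-theoretic), and "having an order" passes to
-- subquotients; the order of `J₀(N)[p^M]` is the one of S19.
import Fermat.Statements.S32
import Fermat.Agent.FF.FinalInst
import Fermat.Agent.FF.Car.S32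
import Fermat.Agent.FF.Inst.Main
import Fermat.Agent.FF.Inst.Pkg.DKap

set_option autoImplicit false
variable {p : ℕ} {N : ℕ} [NeZero N] {S : Finset ℕ}
  {𝒪 : Type} [CommRing 𝒪] [IsDomain 𝒪] [IsDiscreteValuationRing 𝒪]
  [IsAdicComplete (IsLocalRing.maximalIdeal 𝒪) 𝒪]
  {θ : CuspForm.heckeAlgebra N 2 (↑S : Set ℕ) →+* IsLocalRing.ResidueField 𝒪}
  {T : Type} [CommRing T] [IsLocalRing T] [IsNoetherianRing T]
  [IsAdicComplete (IsLocalRing.maximalIdeal T) T] [Algebra 𝒪 T] [IsLocalHom (algebraMap 𝒪 T)]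
  [Module.Finite 𝒪 T] [Module.Free 𝒪 T]
open CuspForm CuspForm.HeckeGaloisRepDatum

namespace Fermat.Agent.S32

theorem result
    [Finite (IsLocalRing.ResidueField 𝒪)] [CharZero 𝒪]
    (hp : p.Prime) (hp2 : p ≠ 2) (hp𝒪 : (p : 𝒪) ∈ IsLocalRing.maximalIdeal 𝒪) (hpN : ¬ p ∣ N)
    (hpS : p ∈ S) (hNS : ∀ q : ℕ, q.Prime → q ∣ N → q ∈ S)
    (H : CuspForm.HeckeGaloisRepDatum N (↑S : Set ℕ) 𝒪 θ T) :
    H.ρ.IsFlatAt p :=
  Fermat.Agent.FF.ffc_S32_of_S19_seams Fermat.Agent.FF.ffh_seamHO Fermat.Agent.FF.ffx_seamDESC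
    (fun ℓ _ hℓN k => Fermat.Agent.FF.ff_local_of_inst N ℓ k
      (Fermat.Agent.FF.ffi_inst_of_leaves N ℓ hℓN k (Fermat.Agent.FF.ffi_dkap N ℓ)))
    hp hpN hp𝒪 hpS hNS H

end Fermat.Agent.S32
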