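-- Statement S34 (row 33): unipotent inertia at `q ‖ N` for the Hecke Galois representation datum.
-- Proof: project SS (architect helper6): `ss_S34_of_core` (SS/Final.lean) fed with the two closed
-- cores: Legendre cover (`q` odd) `ssm_nlb_coreNF` (SS/Model/NodeLegB.lean, helper14 on top of
-- helper2 / helper8 / helper10 / helper11 …) and Hesse cover (`q = 2`) `ssm_nht_coreNFH`
-- (SS/Model/NodeHesFinal.lean, helper29 / helper12).
import Fermat.Statements.S34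
import Fermat.Agent.SS.Final
import Fermat.Agent.SS.Model.NodeLegB
import Fermat.Agent.SS.Model.NodeHesFinal

set_option autoImplicit false
set_option autoImplicit false
open IsLocalRing
open CuspForm CuspForm.HeckeGaloisRepDatum

namespace Fermat.Agent.S34

theorem result
    {𝒪 : Type} [CommRing 𝒪] [IsDomain 𝒪] [IsDiscreteValuationRing 𝒪]
    [IsAdicComplete (maximalIdeal 𝒪) 𝒪] [Finite (ResidueField 𝒪)] [CharZero 𝒪]
    {p : ℕ} (hp : p.Prime) (hp𝒪 : (p : 𝒪) ∈ maximalIdeal 𝒪)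
    {N : ℕ} [NeZero N] {S : Finset ℕ} (hpS : p ∈ S) (hNS : ∀ q : ℕ, q.Prime → q ∣ N → q ∈ S)
    {θ : CuspForm.heckeAlgebra N 2 (↑S : Set ℕ) →+* ResidueField 𝒪}
    {T : Type} [CommRing T] [IsLocalRing T] [IsNoetherianRing T]
    [IsAdicComplete (maximalIdeal T) T] [Algebra 𝒪 T] [IsLocalHom (algebraMap 𝒪 T)]
    [Module.Finite 𝒪 T] [Module.Free 𝒪 T]
    (H : CuspForm.HeckeGaloisRepDatum N (↑S : Set ℕ) 𝒪 θ T)
    (q : ℕ) (hq : q.Prime) (hqp : q ≠ p) (hqN : q ∣ N) (hq2 : ¬ q ^ 2 ∣ N) :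
    H.ρ.IsUnipotentOnInertiaAt q :=
  Fermat.Agent.SS.ss_S34_of_core
    (fun N _ q hq hq2 hqN hq2N => Fermat.Agent.SS.ssm_nlb_coreNF N q hq hq2 hqN hq2N)
    (fun N _ h2 h4 => Fermat.Agent.SS.ssm_nht_coreNFH N h2 h4)
    hp hp𝒪 hpS hNS H q hq hqp hqN hq2

end Fermat.Agent.S34
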