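-- Statement S05: the mod-`p` Galois representation of the Frey curve is unramified at every odd
-- prime `q ≠ p`.  Final assembly of the S05 library (elementary valuation route).
import Fermat.Statements.S05
import Fermat.Agent.S05.UnM1Final
import Fermat.Agent.S05.NodeFixedAlt
import Fermat.Agent.S05.FreyFixed
import Fermat.Agent.S05.FreyAnnulus
import Fermat.Agent.S05.NodeUnit
import Fermat.Agent.S05.TransTwo
import Fermat.Agent.S05.Congruent
import Fermat.Agent.S05.Inertia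

set_option autoImplicit false
open WeierstrassCurve WeierstrassCurve.Affine WeierstrassCurve.Affine.Point
open CuspForm ModularFormClass UpperHalfPlane
open FreyPackage

namespace Fermat.Agent.S05

/-- Good reduction case: inertia fixes every `p`-torsion point. -/
theorem final_good (P : FreyPackage) {q : ℕ} (hq : q.Prime) (hq2 : q ≠ 2) (hqp : q ≠ P.p)
    (A : ValuationSubring (AlgebraicClosure ℚ)) (hA : A.LiesOverPrime q)
    (σ : AlgebraicClosure ℚ ≃ₐ[ℚ] AlgebraicClosure ℚ) (hσ : σ ∈ A.inertiaSubgroupIn ℚ)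
    (hΔ : A.valuation (P.freyCurve⁄(AlgebraicClosure ℚ)).Δ = 1)
    (T : (P.freyCurve⁄(AlgebraicClosure ℚ)).Point) (hT : P.p • T = 0) : σ • T = T := by
  have hW := freyL_integralModel P A hA hq hq2
  obtain ⟨ha1, ha2, ha3, ha4, ha6⟩ := freyL_a_mem P A hA hq hq2
  have hpA : A.valuation (P.p : AlgebraicClosure ℚ) = 1 := prime_unit A hA hq P.pp hqp
  have hp2 : P.p ≠ 2 := by have := P.hp5; omega
  rcases T with _ | ⟨x, y, h⟩
  · exact ga_smul_zero σ
  · rw [smul_some σ h]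
    refine cg_fixed_of_good A (P.freyCurve⁄(AlgebraicClosure ℚ)) ha1 ha2 ha3 ha4 ha6 hΔ
      (p := P.p) ?_ h _ hT ?_ ?_
    · intro X Y H hX hpX
      exact Point.some_ne_zero H
        (eq_zero_of_nsmul_eq_zero hW P.pp hp2 hpA ((inKerRed_some H).mpr hX) hpX)
    · have h1 : P.p • (σ • (Point.some x y h : (P.freyCurve⁄(AlgebraicClosure ℚ)).Point)) = 0 := by
        rw [← ga_smul_nsmul, hT]; exact ga_smul_zero σ
      rwa [smul_some σ h] at h1
    · intro hx hy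
      exact ⟨inertia_sub_lt_one A hσ hx, inertia_sub_lt_one A hσ hy⟩

/-- Multiplicative reduction case: inertia fixes every `p`-torsion point. -/
theorem final_node (P : FreyPackage) {q : ℕ} (hq : q.Prime) (hq2 : q ≠ 2) (hqp : q ≠ P.p)
    (A : ValuationSubring (AlgebraicClosure ℚ)) (hA : A.LiesOverPrime q)
    (σ : AlgebraicClosure ℚ ≃ₐ[ℚ] AlgebraicClosure ℚ) (hσ : σ ∈ A.inertiaSubgroupIn ℚ)
    (r₁ r₂ r₃ : ℚ) (k : ℕ)
    (hfac : ∀ x : AlgebraicClosure ℚ, psi2Sq (P.freyCurve⁄(AlgebraicClosure ℚ)) x =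
        4 * (x - algebraMap ℚ (AlgebraicClosure ℚ) r₁) * (x - algebraMap ℚ (AlgebraicClosure ℚ) r₂)
          * (x - algebraMap ℚ (AlgebraicClosure ℚ) r₃))
    (hv12 : A.valuation (algebraMap ℚ (AlgebraicClosure ℚ) r₁ -
      algebraMap ℚ (AlgebraicClosure ℚ) r₂) = A.valuation (q : AlgebraicClosure ℚ) ^ (P.p * k))
    (hk : 0 < k)
    (hv13 : A.valuation (algebraMap ℚ (AlgebraicClosure ℚ) r₁ -
      algebraMap ℚ (AlgebraicClosure ℚ) r₃) = 1)
    (hr1 : algebraMap ℚ (AlgebraicClosure ℚ) r₁ ∈ A)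
    (hne12 : r₁ ≠ r₂) (hne13 : r₁ ≠ r₃)
    (T : (P.freyCurve⁄(AlgebraicClosure ℚ)).Point) (hT : P.p • T = 0) : σ • T = T := by
  have hW := freyL_integralModel P A hA hq hq2
  obtain ⟨ha1, ha2, ha3, ha4, ha6⟩ := freyL_a_mem P A hA hq hq2
  have h2 : A.valuation (2 : AlgebraicClosure ℚ) = 1 := two_unit A hA hq hq2
  have h2ne : (2 : AlgebraicClosure ℚ) ≠ 0 := two_ne_zero
  have hpA : A.valuation (P.p : AlgebraicClosure ℚ) = 1 := prime_unit A hA hq P.pp hqp
  have hp2 : P.p ≠ 2 := by have := P.hp5; omega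
  set e : AlgebraicClosure ℚ := algebraMap ℚ (AlgebraicClosure ℚ) r₁ with he_def
  set e₂ : AlgebraicClosure ℚ := algebraMap ℚ (AlgebraicClosure ℚ) r₂ with he₂_def
  set e₃ : AlgebraicClosure ℚ := algebraMap ℚ (AlgebraicClosure ℚ) r₃ with he₃_def
  set a : AlgebraicClosure ℚ := (e - e₂) + (e - e₃) with ha_def
  set b : AlgebraicClosure ℚ := (e - e₂) * (e - e₃) with hb_def
  -- valuations of the parameters
  have hqK : (q : AlgebraicClosure ℚ) ≠ 0 := by exact_mod_cast hq.ne_zero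
  have hqlt : A.valuation (q : AlgebraicClosure ℚ) < 1 := intVal_prime_lt_one A hA
  have hpk : P.p * k ≠ 0 := Nat.mul_ne_zero P.hp0 hk.ne'
  have h12lt : A.valuation (e - e₂) < 1 := by
    rw [hv12]; exact pow_lt_one₀ zero_le hqlt hpk
  have hvb : A.valuation b = A.valuation (e - e₂) := by
    rw [hb_def, map_mul, hv13, mul_one]
  have hb1 : A.valuation b < 1 := by rw [hvb]; exact h12lt
  have hva : A.valuation a = 1 := by
    rw [ha_def, Valuation.map_add_eq_of_lt_right _ (by rw [hv13]; exact h12lt), hv13]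
  have haA : a ∈ A := (A.valuation_le_one_iff _).mp hva.le
  have hinj : Function.Injective (algebraMap ℚ (AlgebraicClosure ℚ)) :=
    (algebraMap ℚ (AlgebraicClosure ℚ)).injective
  have hb0 : b ≠ 0 := by
    rw [hb_def]
    refine mul_ne_zero (sub_ne_zero.mpr ?_) (sub_ne_zero.mpr ?_)
    · exact fun h => hne12 (hinj h)
    · exact fun h => hne13 (hinj h)
  -- the nodal parametrisation
  have hfac' : ∀ x : AlgebraicClosure ℚ, psi2Sq (P.freyCurve⁄(AlgebraicClosure ℚ)) x =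
      4 * (x - e) * ((x - e) ^ 2 + a * (x - e) + b) := by
    intro x; rw [hfac x, ha_def, hb_def]; ring
  obtain ⟨hb₂, hb₄, hb₆⟩ := nu_coeffs_of_forall (P.freyCurve⁄(AlgebraicClosure ℚ)) h2ne hfac'
  have hN : NodeParam (P.freyCurve⁄(AlgebraicClosure ℚ)) e a b := ⟨hb₂, hb₄, hb₆⟩
  have hpsie : psi2Sq (P.freyCurve⁄(AlgebraicClosure ℚ)) e = 0 := by rw [hfac' e]; ring
  have h2b : 2 * b = 6 * e ^ 2 + (P.freyCurve⁄(AlgebraicClosure ℚ)).b₂ * e +
      (P.freyCurve⁄(AlgebraicClosure ℚ)).b₄ := by rw [hb₂, hb₄]; ring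
  have hσe : σ e = e := σ.commutes r₁
  refine node_fixed_alt (W' := P.freyCurve) A σ hW ha1 ha2 ha3 ha4 ha6
    (inertia_apply_mem_iff A hσ) (fun z hz => inertia_sub_lt_one A hσ hz) P.pp hp2 hpA
    hr1 hσe (A.valuation b) ?_ ?_ ?_ ?_ (frey_hTe_of_factor P σ r₁ r₂ r₃ hfac) T hT
  · -- (M1')
    intro x y h hp hl hu
    obtain ⟨m, hm⟩ := un_M1 A.valuation hN h2 hva hb1 hb0 h hp hl hu
    have hβ : A.valuation b = A.valuation (q : AlgebraicClosure ℚ) ^ (P.p * k) := by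
      rw [hvb, hv12]
    refine ⟨(q : AlgebraicClosure ℚ) ^ (2 * m * k), zpow_ne_zero _ hqK, ?_,
      fa_exists_fixed_of_pow_eq A hqK P.hp0 hβ hm⟩
    rw [map_zpow₀, map_natCast]
  · -- (N)
    intro x y h hl hu
    refine fa_val_N_eq A (P.freyCurve⁄(AlgebraicClosure ℚ)) h2 (ρ₁ := e) (ρ₂ := e₂) (ρ₃ := e₃)
      (fun t => hfac t) h ?_ hu hv13
    rw [← hvb]; exact hl
  · -- (M3)
    intro x y yT h hT hv
    exact tt_M3 A h2ne hpsie h2b h hT hv
  · -- (M4)
    intro x y h hx hy hξ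
    exact nu_hns_of_coeffs A (P.freyCurve⁄(AlgebraicClosure ℚ)) h2 ha1 ha2 ha3 ha4 hr1 haA hb1
      hb₂ hb₄ hb₆ h hx hξ

theorem result (P : FreyPackage) {q : ℕ} (hq : q.Prime) (hq2 : q ≠ 2) (hqp : q ≠ P.p) : P.GaloisRepUnramifiedAt q := by
  apply ga_galoisRepUnramifiedAt_of_nsmul
  intro A hA σ hσ T hT
  rcases freyL_dichotomy P A hA hq hq2 with hΔ |
    ⟨r₁, r₂, r₃, k, hk, hfac, hv12, hv13, hv23, hr1, hr2, hr3, hne12, hne13, hne23, hp12, hp13⟩
  · exact final_good P hq hq2 hqp A hA σ hσ hΔ T hT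
  · exact final_node P hq hq2 hqp A hA σ hσ r₁ r₂ r₃ k hfac hv12 hk hv13 hr1 hne12 hne13 T hT

end Fermat.Agent.S05
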