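-- Statement S23 (row 22): S₂(Γ₀(N)) has an integral structure.
-- Proof: S₂(Γ₀(N)) is stable under Aut(ℂ) acting on q-expansions (Hconj.lean: level-one
-- norm/Lagrange data + conjugation of level-one forms + integral quotients are cusp forms),
-- Galois descent gives a rational spanning set, and finiteness of the Hecke algebra (S22)
-- bounds denominators (ConjReduction.lean).
import Fermat.Statements.S23
import Fermat.Agent.S23.ConjReduction
import Fermat.Agent.S23.Hconj

set_option autoImplicit false
open CuspForm

namespace Fermat.Agent.S23

theorem result (N : ℕ) [NeZero N] : CuspForm.HasIntegralStructure N 2 :=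
  hasIntegralStructure_of_conj N (hconj N)

end Fermat.Agent.S23
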