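-- Statement S35 (row 34): the λ-adic Galois representation attached to a weight-2 newform of level M,
-- with the characteristic polynomials of Frobenius at the good primes and at the primes q ‖ M.
-- Project S35 (interim architect helper6): `s35_result_of_keyBar1` (S35/Final.lean) fed with the primed
-- Kummer seam at all (N, q), obtained from the primed cores on the Legendre cover (q odd) and on the
-- Hesse cover (q = 2) through the descent arrows of helper22 (SS2/DescPhi).  The cores: [ABEL] = helper4's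
-- s35as_abelNF1_leg/_hes fed with helper13's [ABEL-FAM] (S35/AbelGlue.lean), [TORIC] = helper20's
-- s35ti_leg_toricNF1 / helper12's s35fh_toricNF1.
import Fermat.Statements.S35
import Fermat.Agent.S35.Final
import Fermat.Agent.S35.ToricInst.LegNF1
import Fermat.Agent.S35.FinalHes.ToricNF1
import Fermat.Agent.SS2.DescPhi.KeyBar1Leg
import Fermat.Agent.SS2.DescPhi.KeyBar1Hes
import Fermat.Agent.S35.AbelGlue

set_option autoImplicit false
set_option autoImplicit false
open Polynomial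
open CuspForm CuspForm.IsNewform

namespace Fermat.Agent.S35

theorem result
    {M : ℕ} [NeZero M] {g : CuspForm (CongruenceSubgroup.Gamma0 M) 2} (hg : g.IsNewform)
    (lam : ℕ) [Fact lam.Prime]
    (S : Finset ℕ)
    (O' : Type) [CommRing O'] [IsDomain O'] [IsDiscreteValuationRing O']
    [IsAdicComplete (IsLocalRing.maximalIdeal O') O'] [Finite (IsLocalRing.ResidueField O')]
    [CharZero O'] (hlamO' : (lam : O') ∈ IsLocalRing.maximalIdeal O')
    (chig : CuspForm.heckeAlgebra M 2 (↑S : Set ℕ) →+* ℂ)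
    (hchig : ∀ (ℓ : ℕ) (hℓ : ℓ.Prime) (hℓM : ¬ ℓ ∣ M) (hℓS : ℓ ∉ (↑S : Set ℕ)),
      chig (CuspForm.heckeAlgebra.T hℓ hℓM hℓS) = ModularFormClass.qCoeff g ℓ)
    (iota : chig.range →+* O')
    (hlamS : lam ∈ S) (hMS : ∀ q : ℕ, q.Prime → q ∣ M → q ∈ S)
    :
    ∃ (O'' : Type) (_ : CommRing O'') (_ : IsDomain O'') (_ : IsDiscreteValuationRing O'')
      (_ : IsAdicComplete (IsLocalRing.maximalIdeal O'') O'') (_ : Finite (IsLocalRing.ResidueField O''))
      (_ : CharZero O'') (_ : Algebra O' O'') (_ : Module.Finite O' O'') (_ : IsLocalHom (algebraMap O' O'')),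
      Function.Injective (algebraMap O' O'') ∧
      ∃ ρ : GaloisRepAdic O'',
        (∀ (ℓ : ℕ) (hℓ : ℓ.Prime) (hℓM : ¬ ℓ ∣ M) (hℓS : ℓ ∉ (↑S : Set ℕ)),
          ∀ A : ValuationSubring (AlgebraicClosure ℚ), A.LiesOverPrime ℓ →
            ∀ σ : AlgebraicClosure ℚ ≃ₐ[ℚ] AlgebraicClosure ℚ, A.IsFrobeniusAt σ ℓ →
              LinearMap.charpoly (ρ.ρ σ) =
                X ^ 2 - C (algebraMap O' O'' ((iota.comp chig.rangeRestrict) (CuspForm.heckeAlgebra.T hℓ hℓM hℓS))) * X
                  + C ((ℓ : O''))) ∧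
        (∀ q : ℕ, q.Prime → q ≠ lam → q ∣ M → ¬ q ^ 2 ∣ M →
          ∀ A : ValuationSubring (AlgebraicClosure ℚ), A.LiesOverPrime q →
            ∀ σ : AlgebraicClosure ℚ ≃ₐ[ℚ] AlgebraicClosure ℚ, A.IsFrobeniusAt σ q →
              LinearMap.charpoly (ρ.ρ σ) = X ^ 2 - C ((q : O'') + 1) * X + C ((q : O'')) ∨
              LinearMap.charpoly (ρ.ρ σ) = X ^ 2 + C ((q : O'') + 1) * X + C ((q : O''))) :=
  s35_result_of_keyBar1
    (s35_keyBar1_of_cores
      (fun N q _ _ _ hq2 hqN h => Fermat.Agent.SS2.ss2_dp_keyBar1 N q hq2 hqN h)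
      (fun N q _ _ _ hq3 hqN h => Fermat.Agent.SS2.ss2_dp_keyBar1_hes N q hq3 hqN h)
      (fun N q _ _ _ hq2 hqN =>
        s35_coreNF1_of N q hq2 hqN (s35as_abelNF1_leg N q hq2 hqN (s35ag_famLeg N q hq2)) (s35ti_leg_toricNF1 N q hq2 hqN))
      (fun N q _ _ _ hq3 hqN =>
        s35h_coreNF1_of N q hq3 hqN (s35as_abelNF1_hes N q hq3 hqN (s35ag_famHes N q hq3)) (s35fh_toricNF1 N q hq3 hqN)))
    hg lam S O' hlamO' chig hchig iota hlamS hMS

end Fermat.Agent.S35
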