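-- Statement S36 (row 35): Carayol's lemma at the primes q with q^2 exactly dividing the level M.
-- Project S36 (architect helper25; [M2] model cell helper14; Hesse coordinator helper12; deputy helper1).
-- Top of the chain: `s36d_result_of_coreNF` (S36/Desc/Final.lean, helper28) = node E + S18 + the Kummer
-- seam at all (N', q), obtained by root descent from the two core seams:
--  * (C-L) Legendre cover, q odd: `s36asm_coreNF_of6` (S36/Model/AsmLegLastC.lean, helper1) = the abelian
--    three-valuation core on the tower E0 < E1 < E2 of X0(N'), X0(N' q), X0(N' q q) glued over the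
--    three-component model (components A, B reduced, C of multiplicity q - 1), with the point clauses:
--    A-only / B-only points (helper17), triple points (helper20, helper22, helper10, helper3), C-only
--    cusp points (helper5, helper15, helper23, helper24, helper27) and C-only ordinary points
--    `s36cn_cOrd` (helper2, helper16, helper29);
--  * (C-H) Hesse cover, q = 2: `s36mhf_coreNF_two` (S36/Model/AsmHesClosed.lean, helper12).
import Fermat.Statements.S36
import Fermat.Agent.S36.Desc.Final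
import Fermat.Agent.JT3.Tate.Inputs
import Fermat.Agent.S36.Model.AsmHesClosed
import Fermat.Agent.S36.Model.AsmLegLastC
import Fermat.Agent.S36.CReg.PointNFClosed

set_option autoImplicit false
set_option autoImplicit false
open Polynomial
open CuspForm CuspForm.IsNewform

namespace Fermat.Agent.S36

theorem result
    {M : ℕ} [NeZero M] {g : CuspForm (CongruenceSubgroup.Gamma0 M) 2} (hg : g.IsNewform)
    (lam : ℕ) [Fact lam.Prime]
    (S : Finset ℕ)
    (O' : Type) [CommRing O'] [IsDomain O'] [IsDiscreteValuationRing O']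
    [IsAdicComplete (IsLocalRing.maximalIdeal O') O'] [Finite (IsLocalRing.ResidueField O')]
    [CharZero O'] (hlamO' : (lam : O') ∈ IsLocalRing.maximalIdeal O')
    (hlam2 : lam ≠ 2)
    (chig : CuspForm.heckeAlgebra M 2 (↑S : Set ℕ) →+* ℂ)
    (hchig : ∀ (ℓ : ℕ) (hℓ : ℓ.Prime) (hℓM : ¬ ℓ ∣ M) (hℓS : ℓ ∉ (↑S : Set ℕ)),
      chig (CuspForm.heckeAlgebra.T hℓ hℓM hℓS) = ModularFormClass.qCoeff g ℓ)
    (iota : chig.range →+* O')
    (hlamS : lam ∈ S) (hMS : ∀ q : ℕ, q.Prime → q ∣ M → q ∈ S)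
    (hres : ∀ (O'' : Type) [CommRing O''] [IsDomain O''] [IsDiscreteValuationRing O'']
      [IsAdicComplete (IsLocalRing.maximalIdeal O'') O''] [Finite (IsLocalRing.ResidueField O'')] [CharZero O'']
      [Algebra O' O''] [Module.Finite O' O''] [IsLocalHom (algebraMap O' O'')],
      Function.Injective (algebraMap O' O'') → ∀ (ρ : GaloisRepAdic O''),
      (∀ (ℓ : ℕ) (hℓ : ℓ.Prime) (hℓlam : ℓ ≠ lam) (hℓM : ¬ ℓ ∣ M) (hℓS : ℓ ∉ (↑S : Set ℕ)),
        ∀ A : ValuationSubring (AlgebraicClosure ℚ), A.LiesOverPrime ℓ →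
          ∀ σ : AlgebraicClosure ℚ ≃ₐ[ℚ] AlgebraicClosure ℚ, A.IsFrobeniusAt σ ℓ →
            LinearMap.charpoly (ρ.ρ σ) =
              X ^ 2 - C (algebraMap O' O'' ((iota.comp chig.rangeRestrict) (CuspForm.heckeAlgebra.T hℓ hℓM hℓS))) * X
                + C ((ℓ : O'')))
      → ρ.residual.IsAbsolutelyIrreducible ∧ ρ.residual.IsOdd)
    :
    ∃ (O'' : Type) (_ : CommRing O'') (_ : IsDomain O'') (_ : IsDiscreteValuationRing O'')
      (_ : IsAdicComplete (IsLocalRing.maximalIdeal O'') O'') (_ : Finite (IsLocalRing.ResidueField O''))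
      (_ : CharZero O'') (_ : Algebra O' O'') (_ : Module.Finite O' O'') (_ : IsLocalHom (algebraMap O' O'')),
      Function.Injective (algebraMap O' O'') ∧
      ∃ ρ : GaloisRepAdic O'',
        (∀ (ℓ : ℕ) (hℓ : ℓ.Prime) (hℓM : ¬ ℓ ∣ M) (hℓS : ℓ ∉ (↑S : Set ℕ)),
          ∀ A : ValuationSubring (AlgebraicClosure ℚ), A.LiesOverPrime ℓ →
            ∀ σ : AlgebraicClosure ℚ ≃ₐ[ℚ] AlgebraicClosure ℚ, A.IsFrobeniusAt σ ℓ →
              LinearMap.charpoly (ρ.ρ σ) =
                X ^ 2 - C (algebraMap O' O'' ((iota.comp chig.rangeRestrict) (CuspForm.heckeAlgebra.T hℓ hℓM hℓS))) * X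
                  + C ((ℓ : O''))) ∧
        (∀ q : ℕ, q.Prime → q ≠ lam → M.factorization q = 2 → ¬ ρ.IsUnipotentOnInertiaAt q) := by
  exact s36d_result_of_coreNF Fermat.Agent.JT3.tji_nodeE Fermat.Agent.JT3.tji_S18
    (fun N' q _ _ hq hq2 hqN' =>
      haveI : Fact q.Prime := ⟨hq⟩
      s36asm_coreNF_of6 N' q hq2 hqN'
        (fun L _ _ _ O _ _ hπ ζ hζ _ T3 => s36cn_cOrd L O N' q hq2 hqN' hπ ζ hζ T3))
    (fun N' _ h2N' => s36mhf_coreNF_two N' h2N')
    hg lam S O' hlamO' hlam2 chig hchig iota hlamS hMS hres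

end Fermat.Agent.S36
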