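import Fermat.Statements.S10
import Fermat.Agent.S11.FLT
import Fermat.Agent.S11.SophieGermain
import Fermat.Agent.S11.KummerLemmaInst
import Fermat.Agent.S11.KummerLemmaInst13
import Fermat.Agent.S10.PID7
import Fermat.Agent.S10.PID13

set_option autoImplicit false
open WeierstrassCurve WeierstrassCurve.Affine WeierstrassCurve.Affine.Point
open CuspForm ModularFormClass UpperHalfPlane
open FreyPackage

namespace Fermat.Agent.S10

open Fermat.Agent.S11 in
theorem result (P : FreyPackage) (hp : P.p = 5 ∨ P.p = 7 ∨ P.p = 13) : ¬ HasGaloisStableCofixedLine (K := AlgebraicClosure ℚ) ℚ P.freyCurve P.p := by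
  exfalso
  rcases hp with hp | hp | hp
  · have hprime : Fact (Nat.Prime 5) := ⟨by norm_num⟩
    have hcyc : IsCyclotomicExtension {5} ℚ (CyclotomicField 5 ℚ) :=
      CyclotomicField.isCyclotomicExtension 5 ℚ
    have hpid : IsPrincipalIdealRing (NumberField.RingOfIntegers (CyclotomicField 5 ℚ)) :=
      IsCyclotomicExtension.Rat.five_pid (CyclotomicField 5 ℚ)
    exact freyPackage_false_of (p := 5) (by norm_num) (fun hab h => caseI_five hab h)
      (CyclotomicField 5 ℚ) (kummer_lemma_five (CyclotomicField 5 ℚ)) P hp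
  · have hprime : Fact (Nat.Prime 7) := ⟨by norm_num⟩
    have hcyc : IsCyclotomicExtension {7} ℚ (CyclotomicField 7 ℚ) :=
      CyclotomicField.isCyclotomicExtension 7 ℚ
    have hpid : IsPrincipalIdealRing (NumberField.RingOfIntegers (CyclotomicField 7 ℚ)) :=
      pid_seven (CyclotomicField 7 ℚ)
    exact freyPackage_false_of (p := 7) (by norm_num) (fun hab h => caseI_seven hab h)
      (CyclotomicField 7 ℚ) (kummer_lemma_seven (CyclotomicField 7 ℚ)) P hp
  · have hprime : Fact (Nat.Prime 13) := ⟨by norm_num⟩
    have hcyc : IsCyclotomicExtension {13} ℚ (CyclotomicField 13 ℚ) :=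
      CyclotomicField.isCyclotomicExtension 13 ℚ
    have hpid : IsPrincipalIdealRing (NumberField.RingOfIntegers (CyclotomicField 13 ℚ)) :=
      pid_thirteen (CyclotomicField 13 ℚ)
    exact freyPackage_false_of (p := 13) (by norm_num) (fun hab h => caseI_thirteen hab h)
      (CyclotomicField 13 ℚ) (kummer_lemma_thirteen (CyclotomicField 13 ℚ)) P hp

end Fermat.Agent.S10
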