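import Fermat.Statements.S11
import Fermat.Agent.S11.FLT
import Fermat.Agent.S11.SophieGermain
import Fermat.Agent.S11.PID11
import Fermat.Agent.S11.KummerLemmaInst

set_option autoImplicit false
open WeierstrassCurve WeierstrassCurve.Affine WeierstrassCurve.Affine.Point
open CuspForm ModularFormClass UpperHalfPlane
open FreyPackage

namespace Fermat.Agent.S11

theorem result (P : FreyPackage) (hp : P.p = 11) : ¬ HasGaloisStableCofixedLine (K := AlgebraicClosure ℚ) ℚ P.freyCurve P.p := by
  exfalso
  have hprime : Fact (Nat.Prime 11) := ⟨by norm_num⟩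
  have hcyc : IsCyclotomicExtension {11} ℚ (CyclotomicField 11 ℚ) :=
    CyclotomicField.isCyclotomicExtension 11 ℚ
  have hpid : IsPrincipalIdealRing (NumberField.RingOfIntegers (CyclotomicField 11 ℚ)) :=
    pid_eleven (CyclotomicField 11 ℚ)
  exact freyPackage_false_of (p := 11) (by norm_num) (fun hab h => caseI_eleven hab h)
    (CyclotomicField 11 ℚ) (kummer_lemma_eleven (CyclotomicField 11 ℚ)) P hp

end Fermat.Agent.S11
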