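-- Statement S13: if the mod-`p` representation of the Frey curve is reducible, it has a
-- Galois-stable cofixed line.  Final assembly of the S13 library.
import Fermat.Statements.S13
import Fermat.Agent.S13.Wiring

set_option autoImplicit false
open WeierstrassCurve WeierstrassCurve.Affine WeierstrassCurve.Affine.Point
open CuspForm ModularFormClass UpperHalfPlane
open FreyPackage

namespace Fermat.Agent.S13

theorem result (P : FreyPackage) (hred : ¬ GaloisRepIsIrreducible (K := AlgebraicClosure ℚ) ℚ P.freyCurve P.p) : HasGaloisStableCofixedLine (K := AlgebraicClosure ℚ) ℚ P.freyCurve P.p := by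
  refine wr_result P hred ?_
  intro x y h hT
  obtain ⟨A, hA⟩ := g1_exists_liesOver 2 Nat.prime_two
  exact l2_no_rational_torsion P A hA (fun T hT hpT => wr_noTorsion_two A hA T hT hpT) x y h hT

end Fermat.Agent.S13
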