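import Fermat.Statements.S02

set_option autoImplicit false
open FreyPackage

namespace Fermat.Agent.S02

/-- Coprime case with `b` even and `a` odd. -/
theorem frey_of_coprime_b_even (a b c : ℤ) (ha : a ≠ 0) (hb : b ≠ 0) (hc : c ≠ 0)
    (hab : gcd a b = 1) (p : ℕ) (pp : p.Prime) (hp5 : 5 ≤ p) (H : a ^ p + b ^ p = c ^ p)
    (hbe : (2 : ℤ) ∣ b) : Nonempty FreyPackage := by
  have hpodd : Odd p := pp.odd_of_ne_two (by omega)
  have hb2 : (b : ZMod 2) = 0 := (ZMod.intCast_zmod_eq_zero_iff_dvd b 2).2 hbe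
  -- a is odd
  have hao : ¬ (2 : ℤ) ∣ a := by
    intro h2a
    have : (2 : ℤ) ∣ gcd a b := dvd_gcd h2a hbe
    rw [hab] at this
    have := Int.le_of_dvd one_pos this
    omega
  have ha4 : a % 4 = 1 ∨ a % 4 = 3 := by
    have : ¬ a % 2 = 0 := fun h => hao (Int.dvd_of_emod_eq_zero h)
    omega
  rcases ha4 with h1 | h3
  · -- negate everything
    refine ⟨{ a := -a, b := -b, c := -c, ha0 := neg_ne_zero.2 ha, hb0 := neg_ne_zero.2 hb,
              hc0 := neg_ne_zero.2 hc, p := p, pp := pp, hp5 := hp5, hFLT := ?_, hgcdab := ?_,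
              ha4 := ?_, hb2 := ?_ }⟩
    · rw [hpodd.neg_pow, hpodd.neg_pow, hpodd.neg_pow, ← H]; ring
    · rw [gcd_neg, neg_gcd]; exact hab
    · have h4 : ((-a : ℤ) : ZMod 4) = ((3 : ℤ) : ZMod 4) := by
        rw [ZMod.intCast_eq_intCast_iff_dvd_sub]
        have : (4 : ℤ) ∣ 3 - -a := by
          apply Int.dvd_of_emod_eq_zero; omega
        exact_mod_cast this
      rw [h4]; norm_cast
    · rw [Int.cast_neg, hb2, neg_zero]
  · refine ⟨{ a := a, b := b, c := c, ha0 := ha, hb0 := hb, hc0 := hc, p := p, pp := pp,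
              hp5 := hp5, hFLT := H, hgcdab := hab, ha4 := ?_, hb2 := hb2 }⟩
    have h4 : ((a : ℤ) : ZMod 4) = ((3 : ℤ) : ZMod 4) := by
      rw [ZMod.intCast_eq_intCast_iff_dvd_sub]
      have : (4 : ℤ) ∣ 3 - a := by
        apply Int.dvd_of_emod_eq_zero; omega
      exact_mod_cast this
    rw [h4]; norm_cast

/-- Coprime case. -/
theorem frey_of_coprime (a b c : ℤ) (ha : a ≠ 0) (hb : b ≠ 0) (hc : c ≠ 0)
    (hab : gcd a b = 1) (p : ℕ) (pp : p.Prime) (hp5 : 5 ≤ p) (H : a ^ p + b ^ p = c ^ p) :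
    Nonempty FreyPackage := by
  have hpodd : Odd p := pp.odd_of_ne_two (by omega)
  have hppos : 0 < p := by omega
  have hac : gcd a c = 1 := by rw [← gcdab_eq_gcdac hppos H, hab]
  by_cases hbe : (2 : ℤ) ∣ b
  · exact frey_of_coprime_b_even a b c ha hb hc hab p pp hp5 H hbe
  by_cases hae : (2 : ℤ) ∣ a
  · refine frey_of_coprime_b_even b a c hb ha hc ?_ p pp hp5 ?_ hae
    · rw [gcd_comm]; exact hab
    · rw [add_comm]; exact H
  -- both a, b odd, so c is even
  have hce : (2 : ℤ) ∣ c := by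
    have hao : Odd a := by
      rw [← Int.not_even_iff_odd, even_iff_two_dvd]; exact hae
    have hbo : Odd b := by
      rw [← Int.not_even_iff_odd, even_iff_two_dvd]; exact hbe
    have : Even (c ^ p) := by
      rw [← H]; exact (hao.pow).add_odd (hbo.pow)
    have hc_even : Even c := (Int.even_pow.1 this).1
    exact even_iff_two_dvd.1 hc_even
  -- a^p + (-c)^p = (-b)^p
  refine frey_of_coprime_b_even a (-c) (-b) ha (neg_ne_zero.2 hc) (neg_ne_zero.2 hb) ?_ p pp hp5 ?_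
    ((dvd_neg).2 hce)
  · rw [gcd_neg]; exact hac
  · rw [hpodd.neg_pow, hpodd.neg_pow, ← H]; ring

theorem result (a b c : ℤ) (ha : a ≠ 0) (hb : b ≠ 0) (hc : c ≠ 0) (p : ℕ) (pp : p.Prime) (hp5 : 5 ≤ p) (H : a ^ p + b ^ p = c ^ p) : Nonempty FreyPackage := by
  have hppos : 0 < p := by omega
  have hp0 : p ≠ 0 := by omega
  -- divide out by the gcd
  obtain ⟨d, hd⟩ : ∃ d : ℤ, d = gcd a b := ⟨_, rfl⟩
  have hd0 : d ≠ 0 := by
    rw [hd]; intro h
    exact ha ((gcd_eq_zero_iff a b).1 h).1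
  obtain ⟨a', ha'⟩ : d ∣ a := hd ▸ gcd_dvd_left a b
  obtain ⟨b', hb'⟩ : d ∣ b := hd ▸ gcd_dvd_right a b
  have hdc : d ∣ c := by
    rw [← Int.pow_dvd_pow_iff hp0, ← H, ha', hb', mul_pow, mul_pow]
    exact dvd_add (dvd_mul_right _ _) (dvd_mul_right _ _)
  obtain ⟨c', hc'⟩ := hdc
  have ha'0 : a' ≠ 0 := by rintro rfl; exact ha (by rw [ha', mul_zero])
  have hb'0 : b' ≠ 0 := by rintro rfl; exact hb (by rw [hb', mul_zero])
  have hc'0 : c' ≠ 0 := by rintro rfl; exact hc (by rw [hc', mul_zero])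
  have H' : a' ^ p + b' ^ p = c' ^ p := by
    have hdp : d ^ p ≠ 0 := pow_ne_zero _ hd0
    apply mul_left_cancel₀ hdp
    rw [mul_add, ← mul_pow, ← mul_pow, ← mul_pow, ← ha', ← hb', ← hc', H]
  have hab' : gcd a' b' = 1 := by
    have h1 : gcd a b = normalize d * gcd a' b' := by
      rw [ha', hb', gcd_mul_left]
    have h2 : normalize d = d := by
      rw [hd]; exact normalize_gcd a b
    rw [h2, ← hd] at h1
    have h3 : d * 1 = d * gcd a' b' := by rw [mul_one]; exact h1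
    exact (mul_left_cancel₀ hd0 h3).symm
  exact frey_of_coprime a' b' c' ha'0 hb'0 hc'0 hab' p pp hp5 H'

end Fermat.Agent.S02
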