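import Fermat.Statements.S07
import Fermat.Prelude.Thm_ModularForm_sturm_bound_Gamma0
import Fermat.Prelude.Thm_CongruenceSubgroup_one_mem_strictPeriods_Gamma0

set_option autoImplicit false
open WeierstrassCurve WeierstrassCurve.Affine WeierstrassCurve.Affine.Point
open CuspForm ModularFormClass UpperHalfPlane
open ModularForm

namespace Fermat.Agent.S07

open scoped MatrixGroups

lemma key_zmod2 : ∀ a b c d a' b' c' d' : ZMod 2, a * d - b * c = 1 → a' * d' - b' * c' = 1 →
    (a * c' - c * a' = 0 ↔ (a = a' ∧ c = c')) := by decide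

lemma entry_inv_mul (g h : SL(2, ℤ)) :
    ((g⁻¹ * h) 1 0 : ℤ) = g 0 0 * h 1 0 - g 1 0 * h 0 0 := by
  rw [Matrix.SpecialLinearGroup.SL2_inv_expl]
  simp [Matrix.mul_apply, Fin.sum_univ_two]
  ring

lemma det_eq_one' (g : SL(2, ℤ)) : (g 0 0 : ℤ) * g 1 1 - g 0 1 * g 1 0 = 1 := by
  have := g.det_coe
  rw [Matrix.det_fin_two] at this
  exact this

lemma mem_iff (g h : SL(2, ℤ)) :
    g⁻¹ * h ∈ CongruenceSubgroup.Gamma0 2 ↔
      (((g 0 0 : ℤ) : ZMod 2) = ((h 0 0 : ℤ) : ZMod 2) ∧
        ((g 1 0 : ℤ) : ZMod 2) = ((h 1 0 : ℤ) : ZMod 2)) := by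
  rw [CongruenceSubgroup.Gamma0_mem, entry_inv_mul]
  have hg := congrArg (Int.cast : ℤ → ZMod 2) (det_eq_one' g)
  have hh := congrArg (Int.cast : ℤ → ZMod 2) (det_eq_one' h)
  push_cast at hg hh ⊢
  exact key_zmod2 _ _ _ _ _ _ _ _ hg hh

lemma index_gamma0_two_le : (CongruenceSubgroup.Gamma0 2).index ≤ 4 := by
  classical
  let φ : SL(2, ℤ) ⧸ (CongruenceSubgroup.Gamma0 2) → ZMod 2 × ZMod 2 :=
    Quotient.lift (fun g : SL(2, ℤ) => (((g 0 0 : ℤ) : ZMod 2), ((g 1 0 : ℤ) : ZMod 2))) (by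
      intro g h hgh
      have := QuotientGroup.leftRel_apply.mp hgh
      rw [mem_iff] at this
      exact Prod.ext this.1 this.2)
  have hinj : Function.Injective φ := by
    intro x y
    induction x using Quotient.inductionOn with | _ g => ?_
    induction y using Quotient.inductionOn with | _ h => ?_
    intro hxy
    apply Quotient.sound
    apply QuotientGroup.leftRel_apply.mpr
    rw [mem_iff]
    exact ⟨congrArg Prod.fst hxy, congrArg Prod.snd hxy⟩
  calc (CongruenceSubgroup.Gamma0 2).index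
      = Nat.card (SL(2, ℤ) ⧸ (CongruenceSubgroup.Gamma0 2)) := rfl
    _ ≤ Nat.card (ZMod 2 × ZMod 2) := Nat.card_le_card_of_injective φ hinj
    _ = 4 := by simp

theorem result (f : CuspForm (CongruenceSubgroup.Gamma0 2) 2) : f = 0 := by
  have hF : ModularFormClass.modularForm f = 0 := by
    apply ModularForm.sturm_bound_Gamma0 2 (ModularFormClass.modularForm f)
    intro n hn
    have hidx := index_gamma0_two_le
    have hn0 : n = 0 := by
      have h1 : ((2 : ℤ) * ((CongruenceSubgroup.Gamma0 2).index : ℤ)).toNat ≤ 8 := by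
        omega
      have h2 : ((2 : ℤ) * ((CongruenceSubgroup.Gamma0 2).index : ℤ)).toNat / 12 = 0 := by
        omega
      omega
    subst hn0
    exact CuspFormClass.qExpansion_coeff_zero f one_pos
      (CongruenceSubgroup.one_mem_strictPeriods_Gamma0 2)
  ext z
  exact DFunLike.congr_fun hF z

end Fermat.Agent.S07
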