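-- Statement S16: the index of the Eisenstein ideal in the Hecke algebra of level `p`
-- (Mazur, Modular curves and the Eisenstein ideal, II.9.7) is the numerator of `(p - 1) / 12`.
import Fermat.Statements.S16
import Fermat.Agent.S16.DualityFinal
import Fermat.Agent.S16.SmallPrimes
import Fermat.Agent.S16.Existence
import Fermat.Agent.S16.NoOneModEight
import Fermat.Agent.S16.HeckeTrick
import Fermat.Agent.S16.Congruence
import Fermat.Agent.S16.Theta.Exists
import Fermat.Agent.S16.Theta.Invariance
import Fermat.Agent.S16.Theta.Transform

set_option autoImplicit false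
open ModularCurve CuspForm
open ModularCurve

namespace Fermat.Agent.S16

theorem result
    (p : ℕ) [Fact p.Prime] :
    Nat.card (↥(heckeLatticeAlgebra p ∅) ⧸
        Ideal.map ((latticeRestrictHom p ∅).toRingHom.comp (heckeEvalForms p 2))
          (eisensteinIdeal p)) =
      eisensteinNumerator p := by
  have hpp : p.Prime := Fact.out
  by_cases hp5 : 5 ≤ p
  · -- the main case: duality + existence (theta series) + congruence modulus
    have hp2 : p ≠ 2 := by omega
    have hn : 1 ≤ eisensteinNumerator p := by
      unfold eisensteinNumerator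
      have hd : Nat.gcd (p - 1) 12 ∣ p - 1 := Nat.gcd_dvd_left _ _
      have hpos : 0 < p - 1 := by omega
      exact Nat.div_pos (Nat.le_of_dvd hpos hd) (Nat.gcd_pos_of_pos_left _ hpos)
    refine du_card_eq p (eisensteinNumerator p) hn ?_ ?_
    · apply exists_eisenstein_congruent p
      exact tf_exists_theta_of_invariant p hp5
        (fun D γ hγ z => th_invariant_of D hpp
          (fun γ hγ hd z => th_transform D γ hγ hd z) γ hγ z)
    · exact cong_modulus p hp5 (fun h8 G h hh hG => no_one_mod_eight p h8 G h hh hG)
        (fun ℓ hℓ hℓ2 hℓp b hb G h hh hG => no_one_mod_odd p ℓ hℓ hℓ2 hℓp hp2 b hb G h hh hG)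
  · -- the levels `p = 2, 3`: there are no cusp forms
    have hp23 : p = 2 ∨ p = 3 := by
      have h2 := hpp.two_le
      have : p ≤ 4 := by omega
      interval_cases p
      · exact Or.inl rfl
      · exact Or.inr rfl
      · exact absurd hpp (by decide)
    exact sl_card_quotient p hp23

end Fermat.Agent.S16
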