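-- Statement S17 (Mordell–Weil for J₀(N), N ≥ 5 prime): project MW (architect helper7; leaves by
-- helper1, 3, 4, 9, 10, 11, 13, 15, 17, 18, 19, 22, 23, 24, 25, 26, 27, 28, 29).
import Fermat.Statements.S17
import Fermat.Agent.MW.Final

set_option autoImplicit false
open ModularCurve AlgebraicCurve
open ModularCurve ModularCurve.JZero

namespace Fermat.Agent.S17

theorem result (N : ℕ) [NeZero N] (hN : N.Prime) (hN5 : 5 ≤ N) :
    AddGroup.FG ↥(FixedPoints.addSubgroup ((AlgebraicClosure ℚ) ≃ₐ[ℚ] (AlgebraicClosure ℚ)) (JZero N)) :=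
  Fermat.Agent.MW.mw_final_S17 N hN hN5

end Fermat.Agent.S17
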