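-- Statement S19 (ModularCurve.exists_finiteFlat_model_jZero_torsion): the finite flat model of
-- `J₀(p)[ℓ^k]` over `ℤ_(ℓ)`, `ℓ ∤ p`.  Project FF (architect: helper27): the Hopf order from
-- descent ([HO] helper4, [DESC] helper13/helper18), the abstract residuation theorem ([ADD]), the
-- Galois theory of function algebras ([GAL] helper26) and the geometric instance ([INST], cell
-- architect helper5).
import Fermat.Statements.S19
import Fermat.Agent.FF.FinalInst
import Fermat.Agent.FF.Inst.Main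
import Fermat.Agent.FF.Inst.Pkg.DKap

set_option autoImplicit false
open ModularCurve
open ModularCurve

namespace Fermat.Agent.S19

theorem result
    (p : ℕ) [NeZero p] (ℓ : ℕ) [Fact ℓ.Prime] (hℓp : ¬ ℓ ∣ p) (k : ℕ) :
    ∃ (H : Type) (_ : CommRing H) (_ : HopfAlgebra (GaloisRep.ratLocalizedAt ℓ) H),
      Module.Finite (GaloisRep.ratLocalizedAt ℓ) H ∧ Module.Flat (GaloisRep.ratLocalizedAt ℓ) H ∧
      Coalgebra.IsCocomm (GaloisRep.ratLocalizedAt ℓ) H ∧
      ∃ e : WithConv (H →ₐ[GaloisRep.ratLocalizedAt ℓ] AlgebraicClosure ℚ) ≃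
          ↥(Submodule.torsionBy ℤ (JZero p) ((ℓ : ℤ) ^ k)),
        (∀ f g, e (f * g) = e f + e g) ∧
        ∀ (σ : AlgebraicClosure ℚ ≃ₐ[ℚ] AlgebraicClosure ℚ)
          (f g : WithConv (H →ₐ[GaloisRep.ratLocalizedAt ℓ] AlgebraicClosure ℚ)),
          (∀ h : H, g h = σ (f h)) → ((e g : JZero p)) = σ • (e f : JZero p) :=
  Fermat.Agent.FF.ff_S19_of_inst p ℓ hℓp k
    (Fermat.Agent.FF.ffi_inst_of_leaves p ℓ hℓp k (Fermat.Agent.FF.ffi_dkap p ℓ))

end Fermat.Agent.S19
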