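-- Statement S27 (row 26): the statement below is byte-identical to the frozen statement
-- AlgebraicCurve.Pic0.FermatFrozen.S27 (Fermat/Statements/S27.lean).
import Fermat.Statements.S27
import Fermat.Agent.S27.Top.Seams
import Fermat.Agent.S27.Top.RedHens
import Fermat.Agent.S27.Good.Main
import Fermat.Agent.S27.Red.Dim
import Fermat.Agent.S27.Hens.Main
import Fermat.Agent.S27.Zeta.Main

/-!
# S27: `# Pic⁰(F)[ℓ ^ k] = ℓ ^ (2 g k)` for a function field `F / K`, `K` algebraically closed of
characteristic zero.

Assembly (architect helper9, deputy helper25; cells by the whole team):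
* (FF-BASIC) a separating generator; (GOOD, helper13 & al.) a place of good reduction `(𝒪, 𝒱)` of residue
  characteristic `p ≠ ℓ`, residue field `k = 𝔽̄_p`, same Riemann genus on both sides;
* (RED, helper12 & al.) the reduction map on places and on `Pic⁰`; (HENS, helper18 & al.) multiplication by
  `ℓ` is bijective on the kernel of reduction, hence `# Pic⁰(F)[ℓ ^ k] = # Pic⁰(F̄)[ℓ ^ k]`;
* (Z, helper29 & al.) the count over `𝔽̄_p` by the zeta function of the geometric Frobenius;
* (GEN, helper1) `genusFF K F` is the Riemann genus.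
-/

set_option autoImplicit false
set_option autoImplicit false
open AlgebraicCurve
open AlgebraicCurve AlgebraicCurve.Pic0

namespace Fermat.Agent.S27

theorem result
    (K F : Type*) [Field K] [Field F] [Algebra K F] [IsAlgClosed K] [CharZero K]
    [IsCurveOver K F] [Algebra.EssFiniteType K F]
    (ℓ : ℕ) [Fact ℓ.Prime] (k : ℕ) :
    Nat.card (Pic0.torsion K F (ℓ ^ k)) = ℓ ^ (2 * genusFF K F * k) :=
  s27t_main (fun _ _ _ _ _ _ _ _ hx S => s27g_good_top hx S)
    (s27t_redHens (fun _ _ _ _ _ _ _ _ _ _ R _ h => s27r_hdim R h) s27h_hens_stmt)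
    (fun _ _ _ _ _ _ _ _ _ _ hx hk g hg ℓ _ hℓ n => s27z_main hx hk g hg ℓ hℓ n) K F ℓ k

end Fermat.Agent.S27
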