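-- S28 (row 27): geometric integrality of the Igusa model of X₀(N) in characteristic ℓ ∤ N.
-- Architecture (helper16) and library: Fermat/Agent/S28/* (see the file headers there):
--   core  = irreducibility of the modular equation mod ℓ (Wiring/Main.lean : wr_inputs),
--   (HG)  = generation of the function field by j, j(q^N) (Wiring/Generation.lean : wr_HG'),
--   front = the two chart algebras stay domains after base change (FrontEnd/ChartsFinal.lean),
--   glue  = scheme glue (Glue.lean : ig_isIntegral_pullback').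
import Fermat.Statements.S28
import Fermat.Agent.S28.Glue
import Fermat.Agent.S28.FrontEnd.ChartsFinal
import Fermat.Agent.S28.Wiring.Generation
import Fermat.Agent.S28.Wiring.Main

set_option autoImplicit false
open AlgebraicGeometry CategoryTheory CategoryTheory.Limits ModularCurve ModularCurve.IgusaScheme
noncomputable section
set_option autoImplicit false
open ModularCurve ModularCurve.IgusaScheme

namespace Fermat.Agent.S28

set_option maxHeartbeats 4000000 in
set_option synthInstance.maxHeartbeats 400000 in
theorem result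
    (N : ℕ) [NeZero N] (ℓ : ℕ) [Fact ℓ.Prime] (hℓN : ¬ ℓ ∣ N)
    (K : Type) [Field K] [CharP K ℓ] [Algebra ↥(GaloisRep.ratLocalizedAt ℓ) K] :
    IsIntegral ↑(pullback (igusaTo N ℓ)
      (Spec.map (CommRingCat.ofHom (algebraMap ↥(GaloisRep.ratLocalizedAt ℓ) K)))) := by
  obtain ⟨Φ, hΦm, hΦ0, hC⟩ := wr_inputs N ℓ hℓN
  exact ig_isIntegral_pullback' N ℓ K
    (fcf_isDomain_fin N ℓ K (wr_HG' N) Φ hΦm hΦ0 hC)
    (fcf_isDomain_inf N ℓ K (wr_HG' N) Φ hΦm hΦ0 hC)
    (fcf_j_ne N ℓ K (wr_HG' N) Φ hΦm hΦ0 hC)

end Fermat.Agent.S28
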