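-- Statement S43 (row 37): Ribet level lowering at an odd prime q ≠ p of a conductor level (Frey package form).
-- Proof: project ONE MACHINE (Taylor–Wiles–Kisin patching with Ihara avoidance + Mazur's principle);
-- blocks [F] Easy (Mazur / read-off), [A] LG, [B] Loc, [C] Def, [D] Patch, [E] Aut, assembled in
-- Fermat/Agent/S43/Top/Final3.lean (`s43t_of_M2LG4`) and Fermat/Agent/TW/Aut/SeamBigInst3.lean (`twe_sbi_M2LG4`).
import Fermat.Statements.S43
import Fermat.Agent.S43.Top.Final3
import Fermat.Agent.TW.Aut.SeamBigInst3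

set_option autoImplicit false
open WeierstrassCurve WeierstrassCurve.Affine WeierstrassCurve.Affine.Point
open CuspForm ModularFormClass UpperHalfPlane
open FreyPackage

namespace Fermat.Agent.S43

theorem result (P : FreyPackage) {N q : ℕ} (hcond : P.IsConductorLevel N) (hq : q.Prime) (hq2 : q ≠ 2) (hqp : q ≠ P.p) (hqN : q ∣ N) (hirr : GaloisRepIsIrreducible (K := AlgebraicClosure ℚ) ℚ P.freyCurve P.p) (hmod : P.ModularRepOfLevel N) (hunr : P.GaloisRepUnramifiedAt q) : ∃ M : ℕ, M ∣ N ∧ ¬ q ∣ M ∧ P.ModularRepOfLevel M :=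
  s43t_of_M2LG4 Fermat.Agent.TW.twe_sbi_M2LG4 P hcond hq hq2 hqp hqN hirr hmod hunr

end Fermat.Agent.S43
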