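-- Statement S44 (row 38): Mazur–Ribet level lowering at p for a Frey package of conductor level N.
-- The statement below is byte-identical to the frozen statement FreyPackage.FermatFrozen.S44
-- (Fermat/Statements/S44.lean; the theorem FreyPackage.level_lowering_at_p_of_conductorLevel).
-- Proof: `s44_wiring3` (S44/Wiring3.lean) from the cells of [BIG] for the frame `s44_frame2`:
--   (E2-ord) `s44ro_ord_frame2`, (U-DIV) `s44udm_udiv_frame`, [H2] mono `s44h2_mono`,
--   assembled by `s44hz_cells_exists` (S44/HeckeRes/Cells.lean).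
import Fermat.Statements.S44
import Fermat.Agent.S44.Wiring3
import Fermat.Agent.S44.HeckeRes.Cells
import Fermat.Agent.S44.Res.OrdMain
import Fermat.Agent.S44.Res.UDivMain
import Fermat.Agent.S44.Mono.Main

set_option autoImplicit false
open WeierstrassCurve WeierstrassCurve.Affine WeierstrassCurve.Affine.Point
open CuspForm ModularFormClass UpperHalfPlane
open FreyPackage

namespace Fermat.Agent.S44

theorem result (P : FreyPackage) {N : ℕ} (hcond : P.IsConductorLevel N) (hpN : P.p ∣ N) (hirr : GaloisRepIsIrreducible (K := AlgebraicClosure ℚ) ℚ P.freyCurve P.p) (hmod : P.ModularRepOfLevel N) : ∃ M : ℕ, M ∣ N ∧ ¬ P.p ∣ M ∧ P.ModularRepOfLevel M :=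
  s44_wiring3 (fun P M _ _ hpM _ _ => s44hz_cells_exists P M hpM (s44ro_ord_frame2 P M hpM)
    (s44udm_udiv_frame P M hpM) (s44h2_mono P M hpM)) P hcond hpN hirr hmod

end Fermat.Agent.S44
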