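import Fermat.Statements.S49
import Fermat.Agent.S49.LinAlg
import Fermat.Agent.S49.Formal
import Fermat.Agent.S49.Maximal
import Fermat.Agent.S49.Integral
import Fermat.Agent.S49.Normalize

set_option autoImplicit false
open CuspForm EisensteinWeightOne CongruenceSubgroup ModularFormClass
open FLT FLT.AbstractIntegralStructure

namespace Fermat.Agent.S49

theorem result
    {N : ℕ} [NeZero N] (h : CuspForm.HasIntegralBasis N) {a : ℕ → ℤ}
    (heig : FormalHecke.IsEigensystem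
      (fun ℓ => if ℓ ∣ N then 0 else ((chiNegThree ℓ : ℤ) : ℤ)) a)
    (hreal : CuspForm.IsLatticeRealized N a) :
    ∃ (f : CuspForm (Gamma0 N) 2) (_ : f.IsNormalizedEigenform)
      (𝔪' : Ideal (integralClosure ℤ ℂ)), 𝔪'.IsMaximal ∧
      ((3 : ℕ) : integralClosure ℤ ℂ) ∈ 𝔪' ∧
      ∀ (ℓ : ℕ) (_ : ℓ.Prime) (_ : ¬ ℓ ∣ N),
        ∃ c : integralClosure ℤ ℂ, (c : ℂ) = ModularFormClass.qCoeff f ℓ ∧
          c - (a ℓ : integralClosure ℤ ℂ) ∈ 𝔪' := by
  classical
  obtain ⟨f₀, -, af, haf, hbr⟩ := hreal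
  have hcong : ∀ n, (3 : ℤ) ∣ af n - a n := fun n => by
    have := dvd_add (hbr n) (three_dvd_bridgeProduct_sub a n)
    simpa using this
  have hfd : FiniteDimensional ℂ (CuspForm (Gamma0 N) 2) := finiteDimensional_of_hasIntegralBasis h
  have hmax : (modThreeIdeal f₀).IsMaximal := modThreeIdeal_isMaximal heig haf hcong
  have hf₀ := mem_intLattice_of_haf haf
  obtain ⟨g, hg0, χ, hχ, hker⟩ := exists_eigenvector_ringHom_ker_le
    ((heckeAlgebra N 2 (∅ : Set ℕ)).val : heckeAlgebra N 2 (∅ : Set ℕ) →+*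
      Module.End ℂ (CuspForm (Gamma0 N) 2)) (modThreeIdeal f₀) hmax.isPrime f₀
    (fun t ht => ann_le_modThreeIdeal f₀ t ht)
  have hint : ∀ t, χ t ∈ integralClosure ℤ ℂ := fun t =>
    (isIntegral_hecke h t).map χ.toIntAlgHom
  let χ' : heckeAlgebra N 2 (∅ : Set ℕ) →+* integralClosure ℤ ℂ :=
    χ.codRestrict (integralClosure ℤ ℂ) hint
  have hχ' : ∀ t, ((χ' t : integralClosure ℤ ℂ) : ℂ) = χ t := fun t => rfl
  let _ : Algebra (heckeAlgebra N 2 (∅ : Set ℕ)) (integralClosure ℤ ℂ) := χ'.toAlgebra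
  have hintalg : Algebra.IsIntegral (heckeAlgebra N 2 (∅ : Set ℕ)) (integralClosure ℤ ℂ) :=
    ⟨fun z => (Algebra.IsIntegral.isIntegral (R := ℤ) z).tower_top⟩
  have hker' : RingHom.ker (algebraMap (heckeAlgebra N 2 (∅ : Set ℕ)) (integralClosure ℤ ℂ)) ≤
      modThreeIdeal f₀ := by
    intro t ht
    apply hker
    rw [RingHom.mem_ker] at ht ⊢
    have : χ' t = 0 := ht
    rw [← hχ', this]
    rfl
  obtain ⟨Q, hQmax, hQ⟩ := Ideal.exists_ideal_over_maximal_of_isIntegral (modThreeIdeal f₀) hker'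
  have hQmem : ∀ t, t ∈ modThreeIdeal f₀ → χ' t ∈ Q := by
    intro t ht
    rw [← hQ] at ht
    exact ht
  -- the eigenvalues
  set lam : ℕ → ℂ := fun p =>
    if hp : p.Prime then
      (if hpN : p ∣ N then χ (heckeAlgebra.U hp hpN (Set.notMem_empty p))
        else χ (heckeAlgebra.T hp hpN (Set.notMem_empty p)))
    else 0 with hlam
  obtain ⟨f, hf, hfl⟩ := exists_normalizedEigenform_of_eigenvector hg0 lam
    (fun ℓ hℓ hℓN => by
      have := hχ (heckeAlgebra.T hℓ hℓN (Set.notMem_empty ℓ))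
      simp only [hlam, dif_pos hℓ, dif_neg hℓN]
      exact this)
    (fun q hq hqN => by
      have := hχ (heckeAlgebra.U hq hqN (Set.notMem_empty q))
      simp only [hlam, dif_pos hq, dif_pos hqN]
      exact this)
  refine ⟨f, hf, Q, hQmax, ?_, ?_⟩
  · have := hQmem _ (intCast_mem_modThreeIdeal hf₀ 1)
    have h3 : χ' ((3 * 1 : ℤ) : heckeAlgebra N 2 (∅ : Set ℕ)) =
        ((3 : ℕ) : integralClosure ℤ ℂ) := by
      rw [map_intCast]
      norm_num
    rwa [h3] at this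
  · intro ℓ hℓ hℓN
    refine ⟨χ' (heckeAlgebra.T hℓ hℓN (Set.notMem_empty ℓ)), ?_, ?_⟩
    · rw [hfl ℓ hℓ, hχ']
      simp only [hlam, dif_pos hℓ, dif_neg hℓN]
    · have := hQmem _ (heckeT_sub_mem heig haf hcong hℓ hℓN)
      simpa using this

end Fermat.Agent.S49
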