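import Fermat.Statements.S51
import Fermat.Agent.S51.Contra
import Fermat.Agent.S51.Galois
import Fermat.Agent.S51.Tors5Exists
import Fermat.Agent.S51.X015

set_option autoImplicit false
open WeierstrassCurve WeierstrassCurve.Affine WeierstrassCurve.Affine.Point
open CuspForm ModularFormClass UpperHalfPlane
open WeierstrassCurve

namespace Fermat.Agent.S51

theorem result (W : WeierstrassCurve ℤ) (hΔ : W.Δ ≠ 0) (hW : W.IsSemistableModel) : W.ModRepIsIrreducible 3 ∨ W.ModRepIsIrreducible 5 := by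
  by_contra hcon
  rw [not_or] at hcon
  obtain ⟨h3, h5⟩ := hcon
  have hEΔ : (W.map (Int.castRingHom ℚ)).Δ ≠ 0 := by
    rw [map_Δ]; simpa using hΔ
  have hE : (W.map (Int.castRingHom ℚ)).IsElliptic := ⟨isUnit_iff_ne_zero.mpr hEΔ⟩
  obtain ⟨r, hr⟩ := exists_rat_root_triPoly (W.map (Int.castRingHom ℚ)) h3
  have hEK := galois_isElliptic_baseChange (W.map (Int.castRingHom ℚ))
  obtain ⟨x₁, x₂, s₁, s₂, hs₁, hs₂, hne, hd1, hd2, hD1, hD2⟩ :=
    exists_five_data (W.map (Int.castRingHom ℚ)) (exists_five_torsion _) h5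
  exact false_of_data rational_points_X0_15 W hΔ hW (algebraMap ℚ (AlgebraicClosure ℚ))
    r s₁ s₂ x₁ x₂ hs₁ hs₂ hne hr hd1 hd2 hD1 hD2

end Fermat.Agent.S51
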