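-- Statement S52 (row 46): the 3–5 switch.
-- `result` is assembled here from the S52 library under `Fermat/Agent/S52/`:
-- `s52_main_of_U` (FF/Seams.lean), `s52l_U_of_FAsm` (LAU/UnivClosed.lean), `s52fa_FAsm` (FASM/Closed.lean).
import Fermat.Statements.S52
import Fermat.Agent.S52.FF.Seams
import Fermat.Agent.S52.LAU.UnivClosed
import Fermat.Agent.S52.FASM.Closed

set_option autoImplicit false
open WeierstrassCurve WeierstrassCurve.Affine WeierstrassCurve.Affine.Point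
open CuspForm ModularFormClass UpperHalfPlane
open WeierstrassCurve

namespace Fermat.Agent.S52

theorem result (W : WeierstrassCurve ℤ) (hΔ : W.Δ ≠ 0) (hW : W.IsSemistableModel) (h5 : W.ModRepIsIrreducible 5) : ∃ W' : WeierstrassCurve ℤ, W'.Δ ≠ 0 ∧ W'.IsSemistableModel ∧ W'.ModRepIsIrreducible 3 ∧ ∀ ℓ : ℕ, ℓ.Prime → W.IsGoodPrimeFor ℓ → W'.IsGoodPrimeFor ℓ → ℓ ≠ 5 → (5 : ℤ) ∣ (W'.apOfModel ℓ - W.apOfModel ℓ) :=
  s52_main_of_U (s52l_U_of_FAsm s52fa_FAsm) W hΔ hW h5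

end Fermat.Agent.S52
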