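-- Statement S53 (GaloisRep.nonempty_deformationRingData): existence of the universal deformation
-- ring of an absolutely irreducible residual representation for a deformation condition with
-- finite tangent space.
import Fermat.Statements.S53
import Fermat.Agent.S53.UniversalSlice
import Fermat.Agent.S53.LimitRingData
import Fermat.Agent.S53.ArtinToComplete
import Fermat.Agent.S53.TowerInput
import Fermat.Agent.S53.GoodQuot
import Fermat.Agent.S53.GoodIdeals.CardBoundGlue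

set_option autoImplicit false
set_option autoImplicit false
open GaloisRep

namespace Fermat.Agent.S53

open IsLocalRing in
/-- The tower of least good ideals of the coordinate ring of the gauge slice. -/
theorem exists_tower_final {𝒪 : Type} [CommRing 𝒪] [IsLocalRing 𝒪] [IsNoetherianRing 𝒪]
    [Finite (ResidueField 𝒪)] (S : SliceData 𝒪)
    (𝒟 : ∀ ⦃A : Type⦄ [CommRing A] [IsLocalRing A] [Algebra 𝒪 A], GaloisRepAdic A → Prop)
    (h𝒟 : IsDeformationCondition 𝒪 𝒟)
    {ρbar : ResidualGaloisRep (ResidueField 𝒪)} (hrb : ρbar.IsEquiv S.rb.toResidualGaloisRep)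
    (hbar : 𝒟 (GaloisRepAdic.ofResidualGaloisRep ρbar))
    (hfin : TangentFinite 𝒪 ρbar 𝒟) :
    ∃ I : ℕ → Ideal (Lam 𝒪), TowerHyp 𝒪 (Lam 𝒪) (baseIdeal S) I ∧
      (∀ n, Finite (Lam 𝒪 ⧸ I n)) ∧
      ∀ (n : ℕ) ⦃B : Type⦄ [CommRing B] [IsLocalRing B] [Algebra 𝒪 B],
        IsArtinianTestAlgebra 𝒪 B → maximalIdeal B ^ (n + 1) = ⊥ →
        ∀ f : Lam 𝒪 →ₐ[𝒪] B, (good S 𝒟 f ↔ I n ≤ RingHom.ker f) := by
  classical
  obtain ⟨P, hP⟩ := (IsNoetherian.noetherian (maximalIdeal 𝒪) : (maximalIdeal 𝒪).FG)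
  exact gq_exists_tower h𝒟 hrb hbar
    (fun n => cb_good_card_bound S 𝒟 h𝒟 P hP.symm hrb hfin n)

theorem result
    (𝒪 : Type) [CommRing 𝒪] [IsDomain 𝒪] [IsDiscreteValuationRing 𝒪]
    [IsAdicComplete (IsLocalRing.maximalIdeal 𝒪) 𝒪] [Finite (IsLocalRing.ResidueField 𝒪)]
    (ρbar : ResidualGaloisRep (IsLocalRing.ResidueField 𝒪))
    (𝒟 : ∀ ⦃A : Type⦄ [CommRing A] [IsLocalRing A] [Algebra 𝒪 A], GaloisRepAdic A → Prop)
    (habs : ρbar.IsAbsolutelyIrreducible)
    (h𝒟 : GaloisRep.IsDeformationCondition 𝒪 𝒟)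
    (hbar : 𝒟 (GaloisRepAdic.ofResidualGaloisRep ρbar))
    (hfin : GaloisRep.TangentFinite 𝒪 ρbar 𝒟) :
    Nonempty (GaloisRep.DeformationRingData 𝒪 ρbar 𝒟) := by
  -- the gauge slice
  obtain ⟨S, hrb⟩ := exists_sliceDatum ρbar habs
  -- the tower of least good ideals of the coordinate ring
  obtain ⟨I, hT, hFin, hGI⟩ := exists_tower_final S 𝒟 h𝒟 hrb hbar hfin
  haveI : Finite (Lam 𝒪 ⧸ I 1) := hFin 1
  haveI : IsNoetherianRing (Lam 𝒪 ⧸ I 1) := inferInstance
  -- the limit ring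
  obtain ⟨L⟩ := nonempty_limitRingData hT
  -- the universal slice point over the limit ring
  obtain ⟨rU, hrU, hsp⟩ := exists_universalSlicePoint (R := L.R) S h𝒟 I hGI L.residue_surjective
    L.ι L.comap_ι
  -- universality for Artinian test algebras
  have hArt := fun (B : Type) [CommRing B] [IsLocalRing B] [Algebra 𝒪 B]
      [IsLocalHom (algebraMap 𝒪 B)] (hB : IsArtinianTestAlgebra 𝒪 B) (ρB : GaloisRepAdic B)
      (hρB : 𝒟 ρB) (hresB : ρB.residual.IsEquiv
        (ρbar.baseChangeAlong (IsLocalRing.ResidueField.map (algebraMap 𝒪 B)))) =>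
    universalSlicePoint_artinian (R := L.R) S h𝒟 I hGI L.ι L.comap_ι L.dense_ι rU hrU hrb B hB ρB
      hρB hresB
  exact ⟨{
    R := L.R
    residue_surjective := L.residue_surjective
    absIrr := habs
    ρ := rU.toGaloisRepAdic
    isOfType := hsp.type
    residual_isEquiv := hsp.lift.residual_isEquiv hrb
    universal := universal_of_artinian ρbar 𝒟 h𝒟 habs L.R rU.toGaloisRepAdic hArt }⟩

end Fermat.Agent.S53
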