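import Fermat.Statements.S57
import Fermat.Agent.S57.Depth
import Fermat.Agent.S57.PowerSeriesReg
import Fermat.Agent.S57.Endgame

set_option autoImplicit false
set_option linter.unusedSectionVars false
set_option linter.style.haveILetI false
open Algebra Algebra.PatchingLevel

namespace Fermat.Agent.S57

open RingTheory.Sequence IsLocalRing Module

section
variable {B : Type} [CommRing B] [IsLocalRing B] [IsNoetherianRing B]

/-- a regular sequence on a local ring stays regular on a nonzero finite free module. -/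
theorem isRegular_pi_of_isRegular {d : ℕ} (hd : d ≠ 0) (xs : List B) (h : IsRegular B xs) :
    IsRegular (Fin d → B) xs := by
  haveI : Nonempty (Fin d) := ⟨⟨0, Nat.pos_of_ne_zero hd⟩⟩
  haveI : Nontrivial B := inferInstance
  have hmem := mem_maximalIdeal_of_isRegular h
  refine IsRegular.of_isWeaklyRegular_of_mem_maximalIdeal (Fin d → B) hmem ?_
  have h1 : IsWeaklyRegular (TensorProduct B (Fin d → B) B) xs :=
    h.toIsWeaklyRegular.isWeaklyRegular_lTensor (M₂ := Fin d → B)
  exact (LinearEquiv.isWeaklyRegular_congr (TensorProduct.rid B (Fin d → B)) xs).mp h1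

end

section
variable {𝒪 : Type} [CommRing 𝒪] {r : ℕ} {R : Type} [CommRing R] [Algebra 𝒪 R]
    {M : Type} [AddCommGroup M] [Module R M]
    (L : Algebra.PatchingLevel 𝒪 r R M ⊥)

/-- the additive map `c ↦ ∑ φ (c i) • b i`. -/
noncomputable def coordHom : (Fin L.d → MvPowerSeries (Fin r) 𝒪) →+ L.N where
  toFun c := ∑ i, L.φ (c i) • L.b i
  map_zero' := by simp
  map_add' c c' := by simp [add_smul, Finset.sum_add_distrib]

theorem coordHom_apply (c : Fin L.d → MvPowerSeries (Fin r) 𝒪) :
    coordHom L c = ∑ i, L.φ (c i) • L.b i := rfl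

theorem coordHom_bijective : Function.Bijective (coordHom L) := by
  constructor
  · rw [injective_iff_map_eq_zero]
    intro c hc
    rw [coordHom_apply] at hc
    have := (L.b_rel c).mp hc
    funext i
    simpa using this i
  · intro x
    obtain ⟨c, hc⟩ := L.b_span x
    exact ⟨c, hc.symm⟩

noncomputable def coordEquiv : (Fin L.d → MvPowerSeries (Fin r) 𝒪) ≃+ L.N :=
  AddEquiv.ofBijective (coordHom L) (coordHom_bijective L)

theorem coordEquiv_smul (s : MvPowerSeries (Fin r) 𝒪) (c : Fin L.d → MvPowerSeries (Fin r) 𝒪) :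
    coordEquiv L (s • c) = L.φ s • coordEquiv L c := by
  change coordHom L (s • c) = L.φ s • coordHom L c
  rw [coordHom_apply, coordHom_apply, Finset.smul_sum]
  refine Finset.sum_congr rfl fun i _ => ?_
  rw [Pi.smul_apply, smul_eq_mul, map_mul, mul_smul]

theorem finite_N : Module.Finite (MvPowerSeries (Fin r) 𝒪) L.N := by
  classical
  refine ⟨⟨Finset.univ.image L.b, ?_⟩⟩
  rw [_root_.eq_top_iff]
  intro x _
  obtain ⟨c, rfl⟩ := L.b_span x
  refine Submodule.sum_mem _ fun i _ => Submodule.smul_mem _ _ (Submodule.subset_span ?_)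
  simp

theorem d_ne_zero [Nontrivial M] : L.d ≠ 0 := by
  intro hd
  have hsub : ∀ x : L.N, x = 0 := by
    intro x
    obtain ⟨c, rfl⟩ := L.b_span x
    haveI : IsEmpty (Fin L.d) := by rw [hd]; infer_instance
    simp
  obtain ⟨m, hm⟩ := exists_ne (0 : M)
  obtain ⟨x, rfl⟩ := L.π_surjective m
  rw [hsub x, map_zero] at hm
  exact hm rfl

end

theorem result
    {𝒪 : Type} [CommRing 𝒪] [IsDomain 𝒪] [IsDiscreteValuationRing 𝒪]
    {r : ℕ} {R : Type} [CommRing R] [Algebra 𝒪 R]
    {M : Type} [AddCommGroup M] [Module R M] [Nontrivial M]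
    (L : Algebra.PatchingLevel 𝒪 r R M ⊥) :
    Module.Free R M ∧ Module.annihilator R M = ⊥ ∧
      RingHom.ker L.ψ = Ideal.span (Set.range fun i : Fin r => L.φ (MvPowerSeries.X i)) := by
  obtain ⟨xs, hlen, hreg, hgen⟩ := regGen_mvPowerSeries_dvr 𝒪 r
  haveI : Module.Finite (MvPowerSeries (Fin r) 𝒪) L.N := finite_N L
  have hregpi := isRegular_pi_of_isRegular (d_ne_zero L) xs hreg
  have hF : List.Forall₂ (fun (a b : MvPowerSeries (Fin r) 𝒪) =>
      ∀ c, coordEquiv L (a • c) = b • coordEquiv L c) xs (xs.map L.φ) := by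
    refine List.forall₂_map_right_iff.mpr (List.forall₂_same.mpr fun s _ c => ?_)
    exact coordEquiv_smul L s c
  have hregN : IsRegular L.N (xs.map L.φ) := (AddEquiv.isRegular_congr hF).mp hregpi
  haveI : Module.Free (MvPowerSeries (Fin r) 𝒪) L.N :=
    free_of_isRegular_of_ofList_eq_maximalIdeal xs hgen (xs.map L.φ) hregN (by simp)
  have h𝔞 : Ideal.span (Set.range fun i : Fin r => L.φ (MvPowerSeries.X i)) ≤
      RingHom.ker (L.ψ : MvPowerSeries (Fin r) 𝒪 →+* R) := by
    rw [Ideal.span_le]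
    rintro _ ⟨i, rfl⟩
    exact L.ψ_φ_X i
  exact free_and_ker_of_free (L.ψ : MvPowerSeries (Fin r) 𝒪 →+* R) L.ψ_surjective _ h𝔞 L.π
    L.π_smul L.π_surjective L.ker_π

end Fermat.Agent.S57
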